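import Fermat.Agent.TW.Euler.Base.CharRed.Coind

/-!
# (CHAR-RED) `permTwist ρ (G ⧸ D) ≅ Coind_D^G (Res_D ρ)` and the induced invariant

* `permCoindEquiv`: the `G`-equivariant linear isomorphism
  `(G ⧸ D → V) ≃ coindV D.subtype (ρ.comp D.subtype)`, `F ↦ (h ↦ ρ h (F (h⁻¹ D)))`.
* `coindInv Φ D`: the additive invariant `(W, τ) ↦ Φ (Coind_D^G τ)` of `D`-representations.
-/

set_option autoImplicit false

namespace Fermat.Agent.TW.Euler.CharRed

open Representation

section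

variable {k G : Type} [Field k] [Group G] (D : Subgroup G)
variable {V : Type} [AddCommGroup V] [Module k V] (ρ : Representation k G V)

/-- `F ↦ (h ↦ ρ h (F (h⁻¹ D)))`. -/
def permCoindL : (G ⧸ D → V) →ₗ[k] coindV D.subtype (ρ.comp D.subtype) where
  toFun F := ⟨fun h => ρ h (F ((h⁻¹ : G) : G ⧸ D)), fun d h => by
    show ρ (D.subtype d * h) (F (((D.subtype d * h)⁻¹ : G) : G ⧸ D))
      = (ρ.comp D.subtype) d (ρ h (F ((h⁻¹ : G) : G ⧸ D)))
    have : (((D.subtype d * h)⁻¹ : G) : G ⧸ D) = ((h⁻¹ : G) : G ⧸ D) := by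
      rw [mul_inv_rev]
      exact QuotientGroup.mk_mul_of_mem _ (D.inv_mem d.2)
    rw [this, map_mul]
    rfl⟩
  map_add' F F' := by
    apply Subtype.ext
    funext h
    simp
  map_smul' c F := by
    apply Subtype.ext
    funext h
    simp

@[simp] theorem permCoindL_apply (F : G ⧸ D → V) (h : G) :
    (permCoindL D ρ F).1 h = ρ h (F ((h⁻¹ : G) : G ⧸ D)) := rfl

theorem permCoindL_comm (g : G) (F : G ⧸ D → V) :
    permCoindL D ρ (permTwist ρ (G ⧸ D) g F)
      = coind D.subtype (ρ.comp D.subtype) g (permCoindL D ρ F) := by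
  apply Subtype.ext
  funext h
  show ρ h (ρ g (F (g⁻¹ • ((h⁻¹ : G) : G ⧸ D)))) = ρ (h * g) (F (((h * g)⁻¹ : G) : G ⧸ D))
  rw [map_mul, mul_inv_rev]
  rfl

theorem permCoindL_injective : Function.Injective (permCoindL D ρ) := by
  intro F F' hFF
  funext ω
  obtain ⟨x, rfl⟩ := QuotientGroup.mk_surjective ω
  have h1 := congrArg (fun z => z.1 x⁻¹) hFF
  simp only [permCoindL_apply, inv_inv] at h1
  have h2 := congrArg (ρ x) h1
  rw [← Module.End.mul_apply, ← Module.End.mul_apply, ← map_mul, mul_inv_cancel, map_one] at h2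
  exact h2

theorem permCoindL_surjective : Function.Surjective (permCoindL D ρ) := by
  intro f
  refine ⟨fun ω => ρ ω.out (f.1 (ω.out)⁻¹), ?_⟩
  apply Subtype.ext
  funext h
  show ρ h (ρ ((h⁻¹ : G) : G ⧸ D).out (f.1 (((h⁻¹ : G) : G ⧸ D).out)⁻¹)) = f.1 h
  obtain ⟨d, hd⟩ := QuotientGroup.mk_out_eq_mul D h⁻¹
  rw [hd, mul_inv_rev, inv_inv]
  have h1 := f.2 d⁻¹ h
  have h1' : f.1 ((d : G)⁻¹ * h) = ρ (d : G)⁻¹ (f.1 h) := h1
  rw [h1', ← Module.End.mul_apply, ← Module.End.mul_apply, ← map_mul, ← map_mul]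
  have : h * (h⁻¹ * (d : G)) * (d : G)⁻¹ = 1 := by group
  rw [this, map_one]
  rfl

/-- `permTwist ρ (G ⧸ D) ≅ Coind_D^G (Res_D ρ)`. -/
noncomputable def permCoindEquiv : (G ⧸ D → V) ≃ₗ[k] coindV D.subtype (ρ.comp D.subtype) :=
  LinearEquiv.ofBijective (permCoindL D ρ) ⟨permCoindL_injective D ρ, permCoindL_surjective D ρ⟩

theorem permCoindEquiv_comm (g : G) (F : G ⧸ D → V) :
    permCoindEquiv D ρ (permTwist ρ (G ⧸ D) g F)
      = coind D.subtype (ρ.comp D.subtype) g (permCoindEquiv D ρ F) :=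
  permCoindL_comm D ρ g F

end

section Inv

variable {k G : Type} [Field k] [Group G] [Finite G]

/-- The additive invariant `(W, τ) ↦ Φ (Coind_D^G τ)` of `D`-representations. -/
noncomputable def coindInv (Φ : AddInv k G) (D : Subgroup G) : AddInv k D where
  val W _ _ _ τ := Φ.val (coindV D.subtype τ) (coind D.subtype τ)
  val_congr ρ σ e he :=
    Φ.val_congr _ _
      (LinearEquiv.ofBijective (coindMapL D ρ σ e he)
        ⟨coindMapL_injective D ρ σ e he e.injective,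
          coindMapL_surjective D ρ σ e he e.surjective⟩)
      (fun g v => coindMapL_comm D ρ σ e he g v)
  val_exact ρ₁ ρ₂ ρ₃ f h hf hh hi hs he :=
    Φ.val_exact _ _ _ (coindMapL D ρ₁ ρ₂ f hf) (coindMapL D ρ₂ ρ₃ h hh)
      (fun g v => coindMapL_comm D ρ₁ ρ₂ f hf g v) (fun g v => coindMapL_comm D ρ₂ ρ₃ h hh g v)
      (coindMapL_injective D ρ₁ ρ₂ f hf hi) (coindMapL_surjective D ρ₂ ρ₃ h hh hs)
      (coindMapL_exact D ρ₁ ρ₂ ρ₃ f hf h hh hi he)

theorem coindInv_val (Φ : AddInv k G) (D : Subgroup G) (W : Type) [AddCommGroup W] [Module k W]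
    [Module.Finite k W] (τ : Representation k D W) :
    (coindInv Φ D).val W τ = Φ.val (coindV D.subtype τ) (coind D.subtype τ) := rfl

/-- `Φ (X ⊗ k[G/D]) = (coindInv Φ D) (Res_D X)`. -/
theorem val_permTwist_eq (Φ : AddInv k G) (D : Subgroup G) (V : Type) [AddCommGroup V]
    [Module k V] [Module.Finite k V] (ρ : Representation k G V) :
    Φ.val (G ⧸ D → V) (permTwist ρ (G ⧸ D)) = (coindInv Φ D).val V (ρ.comp D.subtype) :=
  Φ.val_congr _ _ (permCoindEquiv D ρ) (fun g F => permCoindEquiv_comm D ρ g F)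

end Inv

end Fermat.Agent.TW.Euler.CharRed
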