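import Fermat.Agent.TW.Euler.Base.Defs
import Fermat.Agent.TW.Euler.Base.CharRed.PermCoind
import Fermat.Agent.TW.Euler.BNFull.Vanish

/-!
# (CHAR-RED) `charRedOut : CharRedOut`

An additive invariant `Φ` of representations of a finite group `G` over `𝔽_p` which vanishes on
all `Coind_D^G k'(φ)` (`D ≤ G` commutative, e.g. cyclic) vanishes on all
`X ⊗ 𝔽_p[G/D] = permTwist ρ (G ⧸ D)`.

Proof: `permTwist ρ (G ⧸ D) ≅ Coind_D^G (Res_D ρ)`; coinduction is exact, so
`Ψ := coindInv Φ D` is an additive invariant of `D`-representations; it vanishes on the simple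
`𝔽_p[D]`-modules `𝔽_p[D] ⧸ I`, which are the `k'(φ)` with `k' = 𝔽_p[D] ⧸ I` a finite field
(`D` commutative); hence it vanishes identically (composition series).
-/

set_option autoImplicit false

namespace Fermat.Agent.TW.Euler.CharRed

open Representation Fermat.Agent.TW.Euler.BNFull

section Quot

variable (p : ℕ) [Fact p.Prime] {D : Type} [Group D] [Finite D]

/-- The simple `𝔽_p[D]`-modules are of the form `k'(φ)` when `D` is commutative. -/
theorem val_quot_eq_zero (hcomm : ∀ a b : D, a * b = b * a) (Ψ₀ : AddInv (ZMod p) D)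
    (h0 : ∀ (k' : Type) [Field k'] [Finite k'] [Algebra (ZMod p) k'] (φ : D →* k'ˣ),
      Ψ₀.val k' (chiRep (p := p) φ) = 0)
    (I : Ideal (MonoidAlgebra (ZMod p) D)) (hI : I.IsMaximal) :
    Ψ₀.val (MonoidAlgebra (ZMod p) D ⧸ I)
      (repOf (ZMod p) D (MonoidAlgebra (ZMod p) D ⧸ I)) = 0 := by
  letI : CommGroup D := { (inferInstance : Group D) with mul_comm := hcomm }
  letI : CommRing (MonoidAlgebra (ZMod p) D) := inferInstance
  letI : Field (MonoidAlgebra (ZMod p) D ⧸ I) := Ideal.Quotient.field I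
  haveI : Finite (D →₀ ZMod p) := Finite.of_equiv (D → ZMod p) Finsupp.equivFunOnFinite.symm
  haveI : Finite (MonoidAlgebra (ZMod p) D) :=
    Finite.of_equiv (D →₀ ZMod p) MonoidAlgebra.coeffEquiv.symm
  haveI : Finite (MonoidAlgebra (ZMod p) D ⧸ I) :=
    Finite.of_surjective (Ideal.Quotient.mk I) Ideal.Quotient.mk_surjective
  letI : Algebra (ZMod p) (MonoidAlgebra (ZMod p) D ⧸ I) := inferInstance
  let f : D →* (MonoidAlgebra (ZMod p) D ⧸ I) :=
    ((Ideal.Quotient.mk I : MonoidAlgebra (ZMod p) D →+* _) : _ →* _).comp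
      (MonoidAlgebra.of (ZMod p) D)
  let φ : D →* (MonoidAlgebra (ZMod p) D ⧸ I)ˣ := f.toHomUnits
  have h1 := h0 (MonoidAlgebra (ZMod p) D ⧸ I) φ
  have hrep : repOf (ZMod p) D (MonoidAlgebra (ZMod p) D ⧸ I) = chiRep (p := p) φ := by
    apply MonoidHom.ext
    intro d
    apply LinearMap.ext
    intro x
    obtain ⟨a, rfl⟩ := Ideal.Quotient.mk_surjective x
    rfl
  rw [hrep]
  exact h1

end Quot

/-- **(CHAR-RED)** -/
theorem charRedOut : CharRedOut := by
  intro p _ G _ _ Φ D hD _ h V _ _ _ ρ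
  rw [val_permTwist_eq Φ D V ρ]
  have hcomm : ∀ a b : D, a * b = b * a := by
    intro a b
    obtain ⟨g, hg⟩ := hD.exists_generator
    obtain ⟨m, rfl⟩ := Subgroup.mem_zpowers_iff.mp (hg a)
    obtain ⟨n, rfl⟩ := Subgroup.mem_zpowers_iff.mp (hg b)
    exact (Commute.zpow_zpow_self g m n).eq
  exact addInv_eq_zero_of_quot (ZMod p) D (coindInv Φ D)
    (fun I hI => val_quot_eq_zero p hcomm (coindInv Φ D) (fun k' _ _ _ φ => h k' φ) I hI)
    V (ρ.comp D.subtype)

end Fermat.Agent.TW.Euler.CharRed
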