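import Fermat.Agent.TW.Euler.Ind.Defs
import Mathlib.RepresentationTheory.Coinduced

/-!
# (CHAR-RED) Exactness of coinduction from a subgroup, and the induced additive invariant

`G` a finite group, `D ≤ G`, `k` a field.  `coindMapL` is post-composition on
`Representation.coindV D.subtype τ`; it preserves injectivity, surjectivity and exactness, so an
additive invariant `Φ` of `G`-representations induces the additive invariant
`coindInv Φ D : (W, τ) ↦ Φ (Coind_D^G τ)` of `D`-representations.
-/

set_option autoImplicit false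

namespace Fermat.Agent.TW.Euler.CharRed

open Representation

section

variable {k G : Type} [Field k] [Group G] (D : Subgroup G)
variable {W₁ W₂ W₃ : Type} [AddCommGroup W₁] [Module k W₁] [AddCommGroup W₂] [Module k W₂]
  [AddCommGroup W₃] [Module k W₃]
  (τ₁ : Representation k D W₁) (τ₂ : Representation k D W₂) (τ₃ : Representation k D W₃)

/-- Post-composition with a `D`-equivariant linear map, on coinduced modules. -/
def coindMapL (f : W₁ →ₗ[k] W₂) (hf : ∀ d w, f (τ₁ d w) = τ₂ d (f w)) :
    coindV D.subtype τ₁ →ₗ[k] coindV D.subtype τ₂ where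
  toFun x := ⟨fun h => f (x.1 h), fun d h => by
    show f (x.1 (D.subtype d * h)) = τ₂ d (f (x.1 h))
    rw [x.2 d h, hf]⟩
  map_add' x y := by
    apply Subtype.ext
    funext h
    simp
  map_smul' c x := by
    apply Subtype.ext
    funext h
    simp

@[simp] theorem coindMapL_apply (f : W₁ →ₗ[k] W₂) (hf : ∀ d w, f (τ₁ d w) = τ₂ d (f w))
    (x : coindV D.subtype τ₁) (h : G) : (coindMapL D τ₁ τ₂ f hf x).1 h = f (x.1 h) := rfl

theorem coind_apply_val (x : coindV D.subtype τ₁) (g h : G) :
    (coind D.subtype τ₁ g x).1 h = x.1 (h * g) := rfl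

theorem coindMapL_comm (f : W₁ →ₗ[k] W₂) (hf : ∀ d w, f (τ₁ d w) = τ₂ d (f w)) (g : G)
    (x : coindV D.subtype τ₁) :
    coindMapL D τ₁ τ₂ f hf (coind D.subtype τ₁ g x)
      = coind D.subtype τ₂ g (coindMapL D τ₁ τ₂ f hf x) := by
  apply Subtype.ext
  funext h
  rfl

theorem coindMapL_injective (f : W₁ →ₗ[k] W₂) (hf : ∀ d w, f (τ₁ d w) = τ₂ d (f w))
    (hinj : Function.Injective f) : Function.Injective (coindMapL D τ₁ τ₂ f hf) := by
  intro x y hxy
  apply Subtype.ext
  funext h
  apply hinj
  have := congrArg (fun z => z.1 h) hxy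
  simpa using this

theorem coindMapL_exact (f : W₁ →ₗ[k] W₂) (hf : ∀ d w, f (τ₁ d w) = τ₂ d (f w))
    (q : W₂ →ₗ[k] W₃) (hq : ∀ d w, q (τ₂ d w) = τ₃ d (q w))
    (hinj : Function.Injective f) (hex : Function.Exact f q) :
    Function.Exact (coindMapL D τ₁ τ₂ f hf) (coindMapL D τ₂ τ₃ q hq) := by
  intro y
  constructor
  · intro hy
    have hy' : ∀ h : G, q (y.1 h) = 0 := fun h => by
      have := congrArg (fun z => z.1 h) hy
      simpa using this
    choose x hx using fun h : G => (hex (y.1 h)).mp (hy' h)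
    refine ⟨⟨x, fun d h => ?_⟩, ?_⟩
    · apply hinj
      show f (x (D.subtype d * h)) = f (τ₁ d (x h))
      rw [hx, hf, hx, y.2 d h]
    · apply Subtype.ext
      funext h
      exact hx h
  · rintro ⟨x, rfl⟩
    apply Subtype.ext
    funext h
    show q (f (x.1 h)) = 0
    exact hex.apply_apply_eq_zero (x.1 h)

theorem coindMapL_surjective (q : W₂ →ₗ[k] W₃) (hq : ∀ d w, q (τ₂ d w) = τ₃ d (q w))
    (hsurj : Function.Surjective q) : Function.Surjective (coindMapL D τ₂ τ₃ q hq) := by
  intro y
  let _ := QuotientGroup.rightRel D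
  choose! s hs using hsurj
  choose! i hi using Quotient.mk'_surjective (α := G)
  let γ (g : G) : D := ⟨g * (i (Quotient.mk' g))⁻¹,
    (QuotientGroup.rightRel_apply.1 (Quotient.eq'.1 (hi (Quotient.mk' g))))⟩
  have hmk (d : D) (g : G) : (Quotient.mk' (d.1 * g) : Quotient (QuotientGroup.rightRel D))
      = Quotient.mk' g :=
    Quotient.eq'.2 (QuotientGroup.rightRel_apply.2 (by simp))
  have hγ (d : D) (g : G) : γ (d.1 * g) = d * γ g := by
    ext
    simp [mul_assoc, γ, hmk]
  let x (g : G) : W₂ := τ₂ (γ g) (s (y.1 (i (Quotient.mk' g))))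
  refine ⟨⟨x, fun d h => ?_⟩, Subtype.ext <| funext fun g => ?_⟩
  · show x (d.1 * h) = τ₂ d (x h)
    simp only [x, hmk, hγ, map_mul, Module.End.mul_apply]
  · show q (x g) = y.1 g
    simp only [x, hq, hs]
    have h1 := y.2 (γ g) (i (Quotient.mk' g))
    rw [← h1]
    congr 1
    simp [γ]

end

end Fermat.Agent.TW.Euler.CharRed
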